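import Mathlib

/-!
# Weighted Eisenstein sums of level `N`

For a weight function `c : (Fin 2 → ZMod N) → ℂ` and `k ≥ 3` we consider the absolutely convergent
sum `wSum c k z = ∑' v : Fin 2 → ℤ, c (v mod N) * (v 0 * z + v 1) ^ (-k)`.  The slash action of
`SL(2, ℤ)` permutes the weights: `wSum c k ∣[k] A = wSum (c ∘ (· ᵥ* A⁻¹ mod N)) k`.
-/

set_option autoImplicit false

open UpperHalfPlane EisensteinSeries ModularForm Matrix
open scoped MatrixGroups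

namespace Fermat.Agent.S48.A.Conj.Eis3.Sum

variable {N : ℕ}

/-- reduction mod `N` of an integer vector -/
def red (N : ℕ) (v : Fin 2 → ℤ) : Fin 2 → ZMod N := fun i => (v i : ZMod N)

/-- reduction mod `N` of a matrix of `SL(2, ℤ)` -/
def redMat (N : ℕ) (A : SL(2, ℤ)) : Matrix (Fin 2) (Fin 2) (ZMod N) :=
  (A : Matrix (Fin 2) (Fin 2) ℤ).map (Int.castRingHom (ZMod N))

theorem red_vecMul (v : Fin 2 → ℤ) (A : SL(2, ℤ)) :
    red N (v ᵥ* (A : Matrix (Fin 2) (Fin 2) ℤ)) = red N v ᵥ* redMat N A := by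
  funext i
  simp only [red, redMat, vecMul, dotProduct, Fin.sum_univ_two, Matrix.map_apply,
    Int.coe_castRingHom, Int.cast_add, Int.cast_mul]

theorem coe_mul_inv' (A : SL(2, ℤ)) : (A : Matrix (Fin 2) (Fin 2) ℤ) *
    ((A⁻¹ : SL(2, ℤ)) : Matrix (Fin 2) (Fin 2) ℤ) = 1 := by
  have h := congrArg (fun B : SL(2, ℤ) => (B : Matrix (Fin 2) (Fin 2) ℤ)) (mul_inv_cancel A)
  exact h

theorem coe_inv_mul' (A : SL(2, ℤ)) : ((A⁻¹ : SL(2, ℤ)) : Matrix (Fin 2) (Fin 2) ℤ) *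
    (A : Matrix (Fin 2) (Fin 2) ℤ) = 1 := by
  have h := congrArg (fun B : SL(2, ℤ) => (B : Matrix (Fin 2) (Fin 2) ℤ)) (inv_mul_cancel A)
  exact h

/-- the weighted Eisenstein sum -/
noncomputable def wSum (c : (Fin 2 → ZMod N) → ℂ) (k : ℤ) (z : ℍ) : ℂ :=
  ∑' v : Fin 2 → ℤ, c (red N v) * eisSummand k v z

theorem wSum_apply (c : (Fin 2 → ZMod N) → ℂ) (k : ℤ) (z : ℍ) :
    wSum c k z = ∑' v : Fin 2 → ℤ, c (red N v) * eisSummand k v z := by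
  simp only [wSum]

/-- the weights after the action of `A` -/
def actW (c : (Fin 2 → ZMod N) → ℂ) (A : SL(2, ℤ)) : (Fin 2 → ZMod N) → ℂ :=
  fun a => c (a ᵥ* redMat N A⁻¹)

theorem exists_bound [NeZero N] (c : (Fin 2 → ZMod N) → ℂ) : ∃ C : ℝ, 0 ≤ C ∧ ∀ a, ‖c a‖ ≤ C := by
  refine ⟨∑ a, ‖c a‖, Finset.sum_nonneg fun _ _ => norm_nonneg _, fun a => ?_⟩
  exact Finset.single_le_sum (f := fun a => ‖c a‖) (fun _ _ => norm_nonneg _) (Finset.mem_univ a)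

theorem summable_wSum [NeZero N] (c : (Fin 2 → ZMod N) → ℂ) {k : ℤ} (hk : 3 ≤ k) (z : ℍ) :
    Summable fun v : Fin 2 → ℤ => c (red N v) * eisSummand k v z := by
  obtain ⟨C, _, hC⟩ := exists_bound c
  refine Summable.of_norm_bounded ((summable_norm_eisSummand hk z).mul_left C) fun v => ?_
  rw [norm_mul]
  exact mul_le_mul_of_nonneg_right (hC _) (norm_nonneg _)

/-- right multiplication by `A ∈ SL(2, ℤ)` as a permutation of `ℤ²` -/
def vecMulEquiv (A : SL(2, ℤ)) : (Fin 2 → ℤ) ≃ (Fin 2 → ℤ) where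
  toFun v := v ᵥ* (A : Matrix (Fin 2) (Fin 2) ℤ)
  invFun v := v ᵥ* ((A⁻¹ : SL(2, ℤ)) : Matrix (Fin 2) (Fin 2) ℤ)
  left_inv v := by
    show (v ᵥ* (A : Matrix (Fin 2) (Fin 2) ℤ)) ᵥ* ((A⁻¹ : SL(2, ℤ)) : Matrix (Fin 2) (Fin 2) ℤ) = v
    rw [vecMul_vecMul, coe_mul_inv', vecMul_one]
  right_inv v := by
    show (v ᵥ* ((A⁻¹ : SL(2, ℤ)) : Matrix (Fin 2) (Fin 2) ℤ)) ᵥ* (A : Matrix (Fin 2) (Fin 2) ℤ) = v
    rw [vecMul_vecMul, coe_inv_mul', vecMul_one]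

theorem wSum_slash (c : (Fin 2 → ZMod N) → ℂ) (k : ℤ) (A : SL(2, ℤ)) :
    wSum c k ∣[k] A = wSum (actW c A) k := by
  ext1 z
  rw [SL_slash_apply]
  have hd : denom A z ^ k ≠ 0 := zpow_ne_zero _ (denom_ne_zero _ z)
  rw [_root_.zpow_neg, mul_inv_eq_iff_eq_mul₀ hd]
  unfold wSum
  rw [← tsum_mul_right]
  have hR : ∑' w : Fin 2 → ℤ, actW c A (red N w) * eisSummand k w z * denom A z ^ k =
      ∑' v : Fin 2 → ℤ, actW c A (red N (vecMulEquiv A v)) * eisSummand k (vecMulEquiv A v) z *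
        denom A z ^ k :=
    ((vecMulEquiv A).tsum_eq
      (fun w => actW c A (red N w) * eisSummand k w z * denom A z ^ k)).symm
  rw [hR]
  refine tsum_congr fun v => ?_
  have hv : (vecMulEquiv A) v = v ᵥ* (A : Matrix (Fin 2) (Fin 2) ℤ) := rfl
  have h1 : actW c A (red N ((vecMulEquiv A) v)) = c (red N v) := by
    unfold actW
    rw [hv, ← red_vecMul, vecMul_vecMul, coe_mul_inv', vecMul_one]
  rw [h1, eisSummand_SL2_apply, hv]
  ring

end Fermat.Agent.S48.A.Conj.Eis3.Sum
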