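import Mathlib
import Fermat.Agent.S48.A.Conj.Eis3.Sum

/-!
# Weighted Eisenstein sums are modular forms of level `Γ(N)`

Holomorphy (locally uniform convergence), invariance under `Γ(N)`, boundedness at all cusps.
The proofs are those of Mathlib for `eisensteinSeries`, with the bounded weights carried along.
-/

set_option autoImplicit false

open UpperHalfPlane EisensteinSeries ModularForm Matrix CongruenceSubgroup Filter Function
  Set Topology
open scoped MatrixGroups Manifold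

namespace Fermat.Agent.S48.A.Conj.Eis3.Holo

open Fermat.Agent.S48.A.Conj.Eis3.Sum

variable {N : ℕ} [NeZero N]

theorem wSum_tendstoLocallyUniformly (c : (Fin 2 → ZMod N) → ℂ) {k : ℤ} (hk : 3 ≤ k) :
    TendstoLocallyUniformly
      (fun (s : Finset (Fin 2 → ℤ)) ↦ (∑ x ∈ s, c (red N x) * eisSummand k x ·))
      (wSum c k ·) Filter.atTop := by
  obtain ⟨C, hC0, hC⟩ := exists_bound c
  have hk' : (2 : ℝ) < k := by norm_cast
  have p_sum : Summable fun x : Fin 2 → ℤ ↦ ‖x‖ ^ (-k) :=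
    mod_cast (summable_one_div_norm_rpow hk')
  simp only [tendstoLocallyUniformly_iff_forall_isCompact, wSum]
  intro K hK
  obtain ⟨A, B, hB, HABK⟩ := subset_verticalStrip_of_isCompact hK
  refine (tendstoUniformlyOn_tsum
    (hu := (p_sum.mul_left <| r ⟨⟨A, B⟩, hB⟩ ^ (-k : ℝ)).mul_left C)
    (fun p z hz ↦ ?_)).mono HABK
  rw [norm_mul]
  have h1 : ‖eisSummand k p z‖ ≤ r ⟨⟨A, B⟩, hB⟩ ^ (-k : ℝ) * ‖p‖ ^ (-k) := by
    simpa only [eisSummand, one_div, ← _root_.zpow_neg, norm_zpow, ← Real.rpow_intCast,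
      Int.cast_neg] using summand_bound_of_mem_verticalStrip (by positivity) p hB hz
  exact mul_le_mul (hC _) h1 (norm_nonneg _) hC0

theorem wSum_tendstoLocallyUniformlyOn (c : (Fin 2 → ZMod N) → ℂ) {k : ℤ} (hk : 3 ≤ k) :
    TendstoLocallyUniformlyOn (fun (s : Finset (Fin 2 → ℤ)) ↦
      ((fun (z : ℍ) ↦ ∑ x ∈ s, c (red N x) * eisSummand k x z) ∘ ofComplex))
        ((wSum c k) ∘ ofComplex) Filter.atTop {z : ℂ | 0 < z.im} := by
  rw [← upperHalfPlaneSet, ← range_coe, ← image_univ]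
  apply TendstoLocallyUniformlyOn.comp (s := ⊤) _ _ _ (OpenPartialHomeomorph.continuousOn_symm _)
  · simp only [Set.top_eq_univ, tendstoLocallyUniformlyOn_univ]
    apply wSum_tendstoLocallyUniformly c hk
  · simp only [IsOpenEmbedding.toOpenPartialHomeomorph_target, Set.top_eq_univ, mapsTo_range_iff,
    Set.mem_univ, forall_const]

theorem wSum_mdifferentiable (c : (Fin 2 → ZMod N) → ℂ) {k : ℤ} (hk : 3 ≤ k) :
    MDiff (wSum c k) := by
  rw [UpperHalfPlane.mdifferentiable_iff]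
  refine (wSum_tendstoLocallyUniformlyOn c hk).differentiableOn
    (Eventually.of_forall fun s ↦ ?_) isOpen_upperHalfPlaneSet
  have : ((fun (z : ℍ) ↦ ∑ x ∈ s, c (red N x) * eisSummand k x z) ∘ ofComplex) =
      fun w : ℂ => ∑ x ∈ s, c (red N x) * ((eisSummand k x) ∘ ofComplex) w := by
    funext w
    simp only [Function.comp_apply]
  rw [this]
  exact DifferentiableOn.fun_sum fun x _ ↦
    (eisSummand_extension_differentiableOn k x).const_mul (c (red N x))

omit [NeZero N] in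
theorem redMat_eq_one_of_mem_Gamma {A : SL(2, ℤ)} (hA : A ∈ Gamma N) : redMat N A = 1 := by
  have h := Gamma_mem'.mp hA
  have h2 := congrArg (fun B : SL(2, ZMod N) => (B : Matrix (Fin 2) (Fin 2) (ZMod N))) h
  exact h2

omit [NeZero N] in
theorem actW_of_mem_Gamma (c : (Fin 2 → ZMod N) → ℂ) {A : SL(2, ℤ)} (hA : A ∈ Gamma N) :
    actW c A = c := by
  funext a
  unfold actW
  rw [redMat_eq_one_of_mem_Gamma ((Gamma N).inv_mem hA), vecMul_one]

/-- the weighted Eisenstein sum as a slash invariant form of level `Γ(N)` -/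
noncomputable def wSIF (c : (Fin 2 → ZMod N) → ℂ) (k : ℤ) : SlashInvariantForm (Gamma N) k where
  toFun := wSum c k
  slash_action_eq' A hA := by
    obtain ⟨A, (hA : A ∈ Γ(N)), rfl⟩ := hA
    have h1 : wSum c k ∣[k] A = wSum c k := by
      rw [wSum_slash, actW_of_mem_Gamma c hA]
    exact h1

omit [NeZero N] in
theorem wSIF_apply (c : (Fin 2 → ZMod N) → ℂ) (k : ℤ) (z : ℍ) : wSIF c k z = wSum c k z := rfl

omit [NeZero N] in
theorem norm_wSum_le (c : (Fin 2 → ZMod N) → ℂ) {C : ℝ} (hC : ∀ a, ‖c a‖ ≤ C)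
    {k : ℤ} (hk : 3 ≤ k) (z : ℍ) :
    ‖wSum c k z‖ ≤ C * ∑' (x : Fin 2 → ℤ), ‖eisSummand k x z‖ := by
  unfold wSum
  have hs := summable_norm_eisSummand hk z
  have h1 : Summable fun v : Fin 2 → ℤ => ‖c (red N v) * eisSummand k v z‖ := by
    refine Summable.of_nonneg_of_le (fun _ => norm_nonneg _) (fun v => ?_) (hs.mul_left C)
    rw [norm_mul]
    exact mul_le_mul_of_nonneg_right (hC _) (norm_nonneg _)
  refine (norm_tsum_le_tsum_norm h1).trans ?_
  rw [← tsum_mul_left]
  refine h1.tsum_le_tsum (fun v => ?_) (hs.mul_left C)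
  rw [norm_mul]
  exact mul_le_mul_of_nonneg_right (hC _) (norm_nonneg _)

/-- Weighted Eisenstein sums are bounded at infinity. -/
theorem isBoundedAtImInfty_wSum (c : (Fin 2 → ZMod N) → ℂ) {k : ℤ} (hk : 3 ≤ k) :
    IsBoundedAtImInfty (wSum c k) := by
  obtain ⟨C, hC0, hC⟩ := exists_bound c
  rw [UpperHalfPlane.isBoundedAtImInfty_iff]
  refine ⟨C * ∑'(x : Fin 2 → ℤ), r ⟨⟨N, 2⟩, Nat.ofNat_pos⟩ ^ (-k) * ‖x‖ ^ (-k), 2, ?_⟩
  intro z hz
  obtain ⟨n, hn⟩ := (ModularGroup_T_zpow_mem_verticalStrip z (NeZero.pos N))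
  rw [← wSIF_apply, ← SlashInvariantForm.T_zpow_width_invariant N k n (wSIF c k) z, wSIF_apply]
  refine (norm_wSum_le c hC hk _).trans ?_
  refine mul_le_mul_of_nonneg_left ?_ hC0
  have hk' : (2 : ℝ) < k := by norm_cast
  apply (summable_norm_eisSummand hk _).tsum_le_tsum _
  · exact_mod_cast (summable_one_div_norm_rpow hk').mul_left <| r ⟨⟨N, 2⟩, Nat.ofNat_pos⟩ ^ (-k)
  · intro x
    simp_rw [eisSummand, norm_zpow]
    exact_mod_cast
      summand_bound_of_mem_verticalStrip (lt_trans two_pos hk').le x two_pos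
      (verticalStrip_anti_right N hz hn)

/-- the weighted Eisenstein sum as a modular form of level `Γ(N)` -/
noncomputable def wForm (c : (Fin 2 → ZMod N) → ℂ) {k : ℤ} (hk : 3 ≤ k) :
    ModularForm (Gamma N) k where
  toFun := wSum c k
  slash_action_eq' := (wSIF c k).slash_action_eq'
  holo' := wSum_mdifferentiable c hk
  bdd_at_cusps' {x} hx := by
    rw [Subgroup.IsArithmetic.isCusp_iff_isCusp_SL2Z] at hx
    rw [OnePoint.isBoundedAt_iff_forall_SL2Z hx]
    intro γ _
    have h1 : wSum c k ∣[k] γ = wSum (actW c γ) k := wSum_slash c k γ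
    show IsBoundedAtImInfty (wSum c k ∣[k] γ)
    rw [h1]
    exact isBoundedAtImInfty_wSum _ hk

end Fermat.Agent.S48.A.Conj.Eis3.Holo
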