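import Mathlib
import Fermat.Agent.S48.A.Conj.Eis3.Holo

/-!
# The Eisenstein sum attached to a Dirichlet character

`eisChi χ k z = ∑' v : Fin 2 → ℤ, χ (v 0) * (v 0 * z + v 1) ^ (-k)`: a modular form of weight
`k ≥ 3` on `Γ₁(N)`, with `eisChi χ k ∣[k] A = χ (A 1 1) • eisChi χ k` for `A ∈ Γ₀(N)`.
-/

set_option autoImplicit false

open UpperHalfPlane EisensteinSeries ModularForm Matrix CongruenceSubgroup Filter Function
  Set Topology
open scoped MatrixGroups Manifold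

namespace Fermat.Agent.S48.A.Conj.Eis3.Char

open Fermat.Agent.S48.A.Conj.Eis3.Sum Fermat.Agent.S48.A.Conj.Eis3.Holo

variable {N : ℕ}

/-- the weights of the Eisenstein sum with character `χ` -/
noncomputable def cw (χ : DirichletCharacter ℂ N) : (Fin 2 → ZMod N) → ℂ := fun a => χ (a 0)

theorem inv_apply_zero_zero (A : SL(2, ℤ)) :
    ((A⁻¹ : SL(2, ℤ)) : Matrix (Fin 2) (Fin 2) ℤ) 0 0 = (A : Matrix (Fin 2) (Fin 2) ℤ) 1 1 := by
  rw [Matrix.SpecialLinearGroup.SL2_inv_expl A]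
  rfl

theorem inv_apply_one_zero (A : SL(2, ℤ)) :
    ((A⁻¹ : SL(2, ℤ)) : Matrix (Fin 2) (Fin 2) ℤ) 1 0 = -(A : Matrix (Fin 2) (Fin 2) ℤ) 1 0 := by
  rw [Matrix.SpecialLinearGroup.SL2_inv_expl A]
  rfl

theorem actW_cw (χ : DirichletCharacter ℂ N) {A : SL(2, ℤ)} (hA : A ∈ Gamma0 N) :
    actW (cw χ) A = χ (((A : Matrix (Fin 2) (Fin 2) ℤ) 1 1 : ℤ) : ZMod N) • cw χ := by
  funext a
  have hc : (((A : Matrix (Fin 2) (Fin 2) ℤ) 1 0 : ℤ) : ZMod N) = 0 := Gamma0_mem.mp hA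
  unfold actW cw
  have h1 : (a ᵥ* redMat N A⁻¹) 0 =
      a 0 * (((A : Matrix (Fin 2) (Fin 2) ℤ) 1 1 : ℤ) : ZMod N) := by
    simp only [redMat, vecMul, dotProduct, Fin.sum_univ_two, Matrix.map_apply,
      Int.coe_castRingHom, inv_apply_zero_zero, inv_apply_one_zero, Int.cast_neg, hc, neg_zero,
      mul_zero, add_zero]
  rw [h1, map_mul, Pi.smul_apply, smul_eq_mul, mul_comm]

/-- the Eisenstein sum with character -/
noncomputable def eisChi (χ : DirichletCharacter ℂ N) (k : ℤ) : ℍ → ℂ := wSum (cw χ) k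

theorem wSum_smul (c : (Fin 2 → ZMod N) → ℂ) (x : ℂ) (k : ℤ) :
    wSum (x • c) k = x • wSum c k := by
  funext z
  unfold wSum
  rw [Pi.smul_apply, smul_eq_mul, ← tsum_mul_left]
  refine tsum_congr fun v => ?_
  rw [Pi.smul_apply, smul_eq_mul, mul_assoc]

/-- the nebentypus of the Eisenstein sum -/
theorem eisChi_slash (χ : DirichletCharacter ℂ N) (k : ℤ) {A : SL(2, ℤ)} (hA : A ∈ Gamma0 N) :
    eisChi χ k ∣[k] A = χ (((A : Matrix (Fin 2) (Fin 2) ℤ) 1 1 : ℤ) : ZMod N) • eisChi χ k := by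
  unfold eisChi
  rw [wSum_slash, actW_cw χ hA, wSum_smul]

theorem eisChi_slash_Gamma1 (χ : DirichletCharacter ℂ N) (k : ℤ) {A : SL(2, ℤ)}
    (hA : A ∈ Gamma1 N) : eisChi χ k ∣[k] A = eisChi χ k := by
  rw [eisChi_slash χ k (Gamma1_in_Gamma0 N hA)]
  have h1 : (((A : Matrix (Fin 2) (Fin 2) ℤ) 1 1 : ℤ) : ZMod N) = 1 := ((Gamma1_mem N A).mp hA).2.1
  rw [h1, map_one, one_smul]

variable [NeZero N]

/-- the Eisenstein sum with character as a modular form on `Γ₁(N)` -/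
noncomputable def eisChiForm (χ : DirichletCharacter ℂ N) {k : ℤ} (hk : 3 ≤ k) :
    ModularForm (Gamma1 N) k where
  toFun := eisChi χ k
  slash_action_eq' A hA := by
    obtain ⟨A, (hA : A ∈ Gamma1 N), rfl⟩ := hA
    exact eisChi_slash_Gamma1 χ k hA
  holo' := wSum_mdifferentiable (cw χ) hk
  bdd_at_cusps' {x} hx := by
    rw [Subgroup.IsArithmetic.isCusp_iff_isCusp_SL2Z] at hx
    rw [OnePoint.isBoundedAt_iff_forall_SL2Z hx]
    intro γ _
    have h1 : wSum (cw χ) k ∣[k] γ = wSum (actW (cw χ) γ) k := wSum_slash (cw χ) k γ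
    show IsBoundedAtImInfty (wSum (cw χ) k ∣[k] γ)
    rw [h1]
    exact isBoundedAtImInfty_wSum _ hk

theorem coe_eisChiForm (χ : DirichletCharacter ℂ N) {k : ℤ} (hk : 3 ≤ k) :
    (⇑(eisChiForm χ hk) : ℍ → ℂ) = eisChi χ k := rfl

end Fermat.Agent.S48.A.Conj.Eis3.Char
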