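import Mathlib
import Fermat.Agent.S48.A.Conj.Eis3.Char

/-!
# The `q`-expansion of the Eisenstein sum with an odd character in odd weight

For an odd Dirichlet character `χ` mod `N` and an odd weight `k ≥ 3`,
`eisChi χ k z = 2 (-2πi)^k/(k-1)! ∑_{n ≥ 1} (∑_{d c = n} χ(d) c^(k-1)) q^n`.  The normalized form
`eisNorm χ hk` has `q`-expansion `∑ sigmaW (chiW χ) (k-1) n q^n = q + …`, and conjugating the
`q`-expansion by a ring endomorphism `σ` of `ℂ` amounts to conjugating the character.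
-/
set_option autoImplicit false

open UpperHalfPlane EisensteinSeries ModularForm Matrix CongruenceSubgroup Filter Function
  Set Topology
open scoped MatrixGroups Manifold Real Nat

namespace Fermat.Agent.S48.A.Conj.Eis3.QExp

open Fermat.Agent.S48.A.Conj.Eis3.Sum Fermat.Agent.S48.A.Conj.Eis3.Holo
  Fermat.Agent.S48.A.Conj.Eis3.Char

variable {N : ℕ}

/-- weighted divisor sum -/
noncomputable def sigmaW (w : ℕ → ℂ) (k n : ℕ) : ℂ :=
  ∑ x ∈ n.divisorsAntidiagonal, w x.1 * (x.2 : ℂ) ^ k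

theorem summable_prod_weighted (w : ℕ → ℂ) (hw : ∀ d, ‖w d‖ ≤ 1) (k : ℕ) {r : ℂ} (hr : ‖r‖ < 1) :
    Summable fun c : ℕ+ × ℕ+ => w c.1 * (((c.2 : ℕ) : ℂ) ^ k * r ^ ((c.1 : ℕ) * (c.2 : ℕ))) := by
  have h := (summable_prod_mul_pow (𝕜 := ℂ) k hr).norm
  refine Summable.of_norm_bounded h fun c => ?_
  rw [norm_mul]
  calc ‖w c.1‖ * ‖((c.2 : ℕ) : ℂ) ^ k * r ^ ((c.1 : ℕ) * (c.2 : ℕ))‖
      ≤ 1 * ‖((c.2 : ℕ) : ℂ) ^ k * r ^ ((c.1 : ℕ) * (c.2 : ℕ))‖ :=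
        mul_le_mul_of_nonneg_right (hw _) (norm_nonneg _)
    _ = _ := one_mul _

theorem inner_weighted (w : ℕ → ℂ) (k : ℕ) (r : ℂ) (n : ℕ+) :
    ∑' x : (n : ℕ).divisorsAntidiagonal,
      ((fun c : ℕ+ × ℕ+ => w c.1 * (((c.2 : ℕ) : ℂ) ^ k * r ^ ((c.1 : ℕ) * (c.2 : ℕ)))) ∘
        sigmaAntidiagonalEquivProd) ⟨n, x⟩ = sigmaW w k n * r ^ (n : ℕ) := by
  rw [tsum_fintype, sigmaW, Finset.sum_mul, Finset.univ_eq_attach]
  rw [← Finset.sum_attach (n : ℕ).divisorsAntidiagonal]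
  refine Finset.sum_congr rfl fun x _ => ?_
  have hx : x.1.1 * x.1.2 = (n : ℕ) := (Nat.mem_divisorsAntidiagonal.mp x.2).1
  show w x.1.1 * ((x.1.2 : ℂ) ^ k * r ^ (x.1.1 * x.1.2)) = w x.1.1 * (x.1.2 : ℂ) ^ k * r ^ (n : ℕ)
  rw [hx, mul_assoc]

theorem summable_sigmaW_pnat (w : ℕ → ℂ) (hw : ∀ d, ‖w d‖ ≤ 1) (k : ℕ) {r : ℂ} (hr : ‖r‖ < 1) :
    Summable fun e : ℕ+ => sigmaW w k e * r ^ (e : ℕ) := by
  have hs := summable_prod_weighted w hw k hr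
  have hs' := (sigmaAntidiagonalEquivProd.summable_iff.mpr hs).sigma
  exact hs'.congr fun n => inner_weighted w k r n

theorem tsum_prod_weighted (w : ℕ → ℂ) (hw : ∀ d, ‖w d‖ ≤ 1) (k : ℕ) {r : ℂ} (hr : ‖r‖ < 1) :
    ∑' d : ℕ+, ∑' c : ℕ+, w d * (((c : ℕ) : ℂ) ^ k * r ^ ((d : ℕ) * (c : ℕ))) =
      ∑' e : ℕ+, sigmaW w k e * r ^ (e : ℕ) := by
  have hs := summable_prod_weighted w hw k hr
  set F : ℕ+ × ℕ+ → ℂ :=
    fun c => w c.1 * (((c.2 : ℕ) : ℂ) ^ k * r ^ ((c.1 : ℕ) * (c.2 : ℕ))) with hF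
  have hs' : Summable (F ∘ sigmaAntidiagonalEquivProd) :=
    sigmaAntidiagonalEquivProd.summable_iff.mpr hs
  have h1 : ∑' d : ℕ+, ∑' c : ℕ+, w d * (((c : ℕ) : ℂ) ^ k * r ^ ((d : ℕ) * (c : ℕ))) =
      ∑' c : ℕ+ × ℕ+, F c := (hs.tsum_prod).symm
  have h2 : ∑' c : ℕ+ × ℕ+, F c = ∑' p, (F ∘ sigmaAntidiagonalEquivProd) p :=
    (sigmaAntidiagonalEquivProd.tsum_eq F).symm
  rw [h1, h2, Summable.tsum_sigma hs']
  exact tsum_congr fun n => inner_weighted w k r n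

theorem sigmaW_zero (w : ℕ → ℂ) (k : ℕ) : sigmaW w k 0 = 0 := by
  unfold sigmaW
  rw [Nat.divisorsAntidiagonal_zero, Finset.sum_empty]

theorem hasSum_sigmaW (w : ℕ → ℂ) (hw : ∀ d, ‖w d‖ ≤ 1) (k : ℕ) {r : ℂ} (hr : ‖r‖ < 1) :
    HasSum (fun e : ℕ => sigmaW w k e * r ^ e) (∑' e : ℕ+, sigmaW w k e * r ^ (e : ℕ)) := by
  have h1 := (summable_sigmaW_pnat w hw k hr).hasSum
  have h2 := (hasSum_pnat_iff (f := fun e : ℕ => sigmaW w k e * r ^ e)).mp h1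
  rw [sigmaW_zero, zero_mul, add_zero] at h2
  exact h2

theorem chi_zero (χ : DirichletCharacter ℂ N) (hχ : χ.Odd) : χ 0 = 0 := by
  apply χ.map_nonunit
  intro h0
  have h01 : (0 : ZMod N) = 1 := isUnit_zero_iff.mp h0
  have h1 : χ (-1) = 1 := by
    have : (-1 : ZMod N) = 1 := by rw [← h01, neg_zero]
    rw [this, map_one]
  have h2 : χ (-1) = -1 := hχ
  rw [h2] at h1
  norm_num at h1

theorem summable_prod (χ : DirichletCharacter ℂ N) {k : ℕ} (hk : 3 ≤ k) (z : ℍ) :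
    Summable fun x : ℤ × ℤ => χ (x.1 : ZMod N) * eisSummand k ![x.1, x.2] z := by
  refine Summable.of_norm_bounded (summable_prod_eisSummand hk z).norm fun x => ?_
  rw [norm_mul]
  calc ‖χ (x.1 : ZMod N)‖ * ‖eisSummand k ![x.1, x.2] z‖
      ≤ 1 * ‖eisSummand k ![x.1, x.2] z‖ :=
        mul_le_mul_of_nonneg_right (DirichletCharacter.norm_le_one χ _) (norm_nonneg _)
    _ = _ := one_mul _

theorem eisChi_eq_tsum_prod (χ : DirichletCharacter ℂ N) (k : ℕ) (z : ℍ) :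
    eisChi χ (k : ℤ) z = ∑' x : ℤ × ℤ, χ (x.1 : ZMod N) * eisSummand k ![x.1, x.2] z := by
  unfold eisChi wSum
  rw [← (finTwoArrowEquiv ℤ).symm.tsum_eq]
  refine tsum_congr fun x => ?_
  rfl

theorem even_inner (χ : DirichletCharacter ℂ N) (hχ : χ.Odd) {k : ℕ} (hk2 : Odd k) (z : ℍ)
    (a : ℤ) : ∑' b : ℤ, χ ((-a : ℤ) : ZMod N) * eisSummand k ![-a, b] z =
      ∑' b : ℤ, χ (a : ZMod N) * eisSummand k ![a, b] z := by
  rw [← (Equiv.neg ℤ).tsum_eq]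
  refine tsum_congr fun b => ?_
  have h1 : χ ((-a : ℤ) : ZMod N) = -χ (a : ZMod N) := by
    have h2 : χ (-1) = -1 := hχ
    rw [Int.cast_neg, ← neg_one_mul, map_mul, h2, neg_one_mul]
  have h3 : eisSummand k ![-a, (Equiv.neg ℤ) b] z = -eisSummand k ![a, b] z := by
    have hodd : Odd (-(k : ℤ)) := (Int.odd_coe_nat k |>.mpr hk2).neg
    show (((-a : ℤ) : ℂ) * z + ((-b : ℤ) : ℂ)) ^ (-(k : ℤ)) = -(((a : ℂ) * z + (b : ℂ)) ^ (-(k : ℤ)))
    rw [← hodd.neg_zpow]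
    congr 1
    push_cast
    ring
  rw [h1, h3, neg_mul_neg]


theorem inner_pnat (χ : DirichletCharacter ℂ N) {k : ℕ} (hk : 3 ≤ k) (z : ℍ) (a : ℕ+) :
    ∑' b : ℤ, χ (((a : ℕ) : ℤ) : ZMod N) * eisSummand k ![((a : ℕ) : ℤ), b] z =
      ((-2 * π * Complex.I) ^ k / (k - 1)!) *
      ∑' n : ℕ+, χ ((a : ℕ) : ZMod N) * (((n : ℕ) : ℂ) ^ (k - 1) *
        Complex.exp (2 * π * Complex.I * z) ^ ((a : ℕ) * (n : ℕ))) := by
  have him : 0 < (((a : ℕ) : ℂ) * (z : ℂ)).im := by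
    rw [Complex.mul_im, Complex.natCast_re, Complex.natCast_im, zero_mul, add_zero]
    exact mul_pos (by exact_mod_cast a.pos) z.2
  have H := qExpansion_identity_pnat (k := k - 1) (by omega) ⟨((a : ℕ) : ℂ) * z, him⟩
  have hk1 : k - 1 + 1 = k := by omega
  rw [hk1] at H
  rw [tsum_mul_left]
  have h1 : ∑' b : ℤ, eisSummand k ![((a : ℕ) : ℤ), b] z =
      ∑' n : ℤ, 1 / ((((⟨((a : ℕ) : ℂ) * z, him⟩ : ℍ)) : ℂ) + n) ^ k := by
    refine tsum_congr fun b => ?_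
    show ((((a : ℕ) : ℤ) : ℂ) * z + (b : ℂ)) ^ (-(k : ℤ)) = 1 / (((a : ℕ) : ℂ) * z + (b : ℂ)) ^ k
    rw [_root_.zpow_neg, zpow_natCast, one_div, Int.cast_natCast]
  rw [h1, H, ← tsum_mul_left, ← tsum_mul_left, ← tsum_mul_left]
  refine tsum_congr fun n => ?_
  have h2 : Complex.exp (2 * π * Complex.I * (((⟨((a : ℕ) : ℂ) * z, him⟩ : ℍ)) : ℂ)) ^ (n : ℕ) =
      Complex.exp (2 * π * Complex.I * z) ^ ((a : ℕ) * (n : ℕ)) := by
    rw [← Complex.exp_nat_mul, ← Complex.exp_nat_mul]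
    congr 1
    show ((n : ℕ) : ℂ) * (2 * π * Complex.I * (((a : ℕ) : ℂ) * z)) = _
    push_cast
    ring
  rw [h2, Int.cast_natCast]
  ring


/-- the weights `d ↦ χ d` -/
noncomputable def chiW (χ : DirichletCharacter ℂ N) : ℕ → ℂ := fun d => χ (d : ZMod N)

theorem norm_chiW_le (χ : DirichletCharacter ℂ N) (d : ℕ) : ‖chiW χ d‖ ≤ 1 :=
  DirichletCharacter.norm_le_one χ _

/-- the constant `2 (-2πi)^k / (k-1)!` -/
noncomputable def eisConst (k : ℕ) : ℂ := 2 * ((-2 * π * Complex.I) ^ k / (k - 1)!)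

theorem eisConst_ne_zero (k : ℕ) : eisConst k ≠ 0 := by
  unfold eisConst
  refine mul_ne_zero two_ne_zero (div_ne_zero (pow_ne_zero _ ?_) ?_)
  · refine mul_ne_zero (mul_ne_zero (by norm_num) ?_) Complex.I_ne_zero
    exact_mod_cast Real.pi_ne_zero
  · exact_mod_cast Nat.factorial_ne_zero _

theorem eisChi_eq_tsum (χ : DirichletCharacter ℂ N) (hχ : χ.Odd) {k : ℕ} (hk : 3 ≤ k)
    (hk2 : Odd k) (z : ℍ) :
    eisChi χ (k : ℤ) z = eisConst k *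
      ∑' n : ℕ+, sigmaW (chiW χ) (k - 1) n * Complex.exp (2 * π * Complex.I * z) ^ (n : ℕ) := by
  have hsum := summable_prod χ hk z
  rw [eisChi_eq_tsum_prod, hsum.tsum_prod,
    tsum_int_eq_zero_add_two_mul_tsum_pnat (fun a => even_inner χ hχ hk2 z a) hsum.prod]
  have h0 : ∑' b : ℤ, χ ((0 : ℤ) : ZMod N) * eisSummand k ![0, b] z = 0 := by
    rw [Int.cast_zero, chi_zero χ hχ]
    simp only [zero_mul, tsum_zero]
  rw [h0, zero_add]
  have h1 : ∀ a : ℕ+, ∑' b : ℤ, χ (((a : ℕ) : ℤ) : ZMod N) * eisSummand k ![((a : ℕ) : ℤ), b] z =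
      ((-2 * π * Complex.I) ^ k / (k - 1)!) *
      ∑' n : ℕ+, chiW χ a * (((n : ℕ) : ℂ) ^ (k - 1) *
        Complex.exp (2 * π * Complex.I * z) ^ ((a : ℕ) * (n : ℕ))) := fun a => inner_pnat χ hk z a
  rw [tsum_congr h1, tsum_mul_left,
    tsum_prod_weighted (chiW χ) (norm_chiW_le χ) (k - 1) (norm_exp_two_pi_I_lt_one z)]
  unfold eisConst
  ring


theorem sigmaW_one (w : ℕ → ℂ) (k : ℕ) : sigmaW w k 1 = w 1 := by
  unfold sigmaW
  rw [Nat.divisorsAntidiagonal_one, Finset.sum_singleton, Nat.cast_one, one_pow, mul_one]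

theorem chiW_one (χ : DirichletCharacter ℂ N) : chiW χ 1 = 1 := by
  unfold chiW
  rw [Nat.cast_one, map_one]

theorem map_sigmaW (σ : ℂ →+* ℂ) (w : ℕ → ℂ) (k n : ℕ) :
    σ (sigmaW w k n) = sigmaW (fun d => σ (w d)) k n := by
  unfold sigmaW
  rw [map_sum]
  refine Finset.sum_congr rfl fun x _ => ?_
  rw [map_mul, map_pow, map_natCast]

/-- the conjugate character `σ ∘ χ` -/
noncomputable def conjChar (χ : DirichletCharacter ℂ N) (σ : ℂ →+* ℂ) : DirichletCharacter ℂ N :=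
  χ.ringHomComp σ

theorem conjChar_apply (χ : DirichletCharacter ℂ N) (σ : ℂ →+* ℂ) (a : ZMod N) :
    conjChar χ σ a = σ (χ a) := rfl

theorem chiW_conjChar (χ : DirichletCharacter ℂ N) (σ : ℂ →+* ℂ) :
    chiW (conjChar χ σ) = fun d => σ (chiW χ d) := rfl

theorem odd_conjChar (χ : DirichletCharacter ℂ N) (hχ : χ.Odd) (σ : ℂ →+* ℂ) :
    (conjChar χ σ).Odd := by
  show conjChar χ σ (-1) = -1
  have h2 : χ (-1) = -1 := hχ
  rw [conjChar_apply, h2, map_neg, map_one]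

variable [NeZero N]

/-- the normalized Eisenstein series of odd weight `k ≥ 3` with odd character `χ` -/
noncomputable def eisNorm (χ : DirichletCharacter ℂ N) {k : ℕ} (hk : 3 ≤ k) :
    ModularForm (Gamma1 N) (k : ℤ) :=
  (eisConst k)⁻¹ • eisChiForm χ (k := (k : ℤ)) (by exact_mod_cast hk)

theorem eisNorm_apply (χ : DirichletCharacter ℂ N) {k : ℕ} (hk : 3 ≤ k) (z : ℍ) :
    eisNorm χ hk z = (eisConst k)⁻¹ * eisChi χ (k : ℤ) z := rfl

theorem hasSum_eisNorm (χ : DirichletCharacter ℂ N) (hχ : χ.Odd) {k : ℕ} (hk : 3 ≤ k)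
    (hk2 : Odd k) (τ : ℍ) :
    HasSum (fun m : ℕ => sigmaW (chiW χ) (k - 1) m • Function.Periodic.qParam (1 : ℝ) τ ^ m)
      (eisNorm χ hk τ) := by
  rw [eisNorm_apply, eisChi_eq_tsum χ hχ hk hk2, ← mul_assoc, inv_mul_cancel₀ (eisConst_ne_zero k),
    one_mul]
  have h1 := hasSum_sigmaW (chiW χ) (norm_chiW_le χ) (k - 1) (norm_exp_two_pi_I_lt_one τ)
  have h2 : Function.Periodic.qParam (1 : ℝ) τ = Complex.exp (2 * π * Complex.I * τ) := by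
    unfold Function.Periodic.qParam
    rw [Complex.ofReal_one, div_one]
  rw [h2]
  exact h1

theorem one_mem_strictPeriods (M : ℕ) :
    (1 : ℝ) ∈ (Gamma1 M : Subgroup (GL (Fin 2) ℝ)).strictPeriods := by
  rw [strictPeriods_Gamma1]
  exact AddSubgroup.mem_zmultiples 1

theorem qExpansion_eisNorm_coeff (χ : DirichletCharacter ℂ N) (hχ : χ.Odd) {k : ℕ} (hk : 3 ≤ k)
    (hk2 : Odd k) (m : ℕ) :
    (qExpansion 1 (eisNorm χ hk)).coeff m = sigmaW (chiW χ) (k - 1) m :=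
  (ModularFormClass.qExpansion_coeff_unique one_pos
    (one_mem_strictPeriods N)
    (hasSum_eisNorm χ hχ hk hk2) m).symm


/-- the `q`-expansion of the normalized Eisenstein series -/
theorem qExpansion_eisNorm (χ : DirichletCharacter ℂ N) (hχ : χ.Odd) {k : ℕ} (hk : 3 ≤ k)
    (hk2 : Odd k) :
    qExpansion 1 (eisNorm χ hk) = PowerSeries.mk (sigmaW (chiW χ) (k - 1)) := by
  ext m
  rw [PowerSeries.coeff_mk, qExpansion_eisNorm_coeff χ hχ hk hk2]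

/-- conjugating the `q`-expansion conjugates the character -/
theorem map_qExpansion_eisNorm (χ : DirichletCharacter ℂ N) (hχ : χ.Odd) {k : ℕ} (hk : 3 ≤ k)
    (hk2 : Odd k) (σ : ℂ →+* ℂ) :
    PowerSeries.map σ (qExpansion 1 (eisNorm χ hk)) =
      qExpansion 1 (eisNorm (conjChar χ σ) hk) := by
  rw [qExpansion_eisNorm χ hχ hk hk2,
    qExpansion_eisNorm (conjChar χ σ) (odd_conjChar χ hχ σ) hk hk2]
  ext m
  rw [PowerSeries.coeff_map, PowerSeries.coeff_mk, PowerSeries.coeff_mk, map_sigmaW,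
    chiW_conjChar]

theorem qExpansion_eisNorm_coeff_zero (χ : DirichletCharacter ℂ N) (hχ : χ.Odd) {k : ℕ}
    (hk : 3 ≤ k) (hk2 : Odd k) : (qExpansion 1 (eisNorm χ hk)).coeff 0 = 0 := by
  rw [qExpansion_eisNorm_coeff χ hχ hk hk2, sigmaW_zero]

theorem qExpansion_eisNorm_coeff_one (χ : DirichletCharacter ℂ N) (hχ : χ.Odd) {k : ℕ}
    (hk : 3 ≤ k) (hk2 : Odd k) : (qExpansion 1 (eisNorm χ hk)).coeff 1 = 1 := by
  rw [qExpansion_eisNorm_coeff χ hχ hk hk2, sigmaW_one, chiW_one]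

theorem eisNorm_ne_zero (χ : DirichletCharacter ℂ N) (hχ : χ.Odd) {k : ℕ}
    (hk : 3 ≤ k) (hk2 : Odd k) : eisNorm χ hk ≠ 0 := by
  intro h0
  have h1 := qExpansion_eisNorm_coeff_one χ hχ hk hk2
  rw [h0] at h1
  have h2 : qExpansion 1 (⇑(0 : ModularForm (Gamma1 N) (k : ℤ))) = 0 := by
    exact (ModularForm.qExpansion_eq_zero_iff one_pos (one_mem_strictPeriods N) _).mpr rfl
  rw [h2, map_zero] at h1
  exact zero_ne_one h1

/-- the nebentypus of the normalized Eisenstein series -/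
theorem eisNorm_slash (χ : DirichletCharacter ℂ N) {k : ℕ} (hk : 3 ≤ k) {A : SL(2, ℤ)}
    (hA : A ∈ Gamma0 N) :
    ⇑(eisNorm χ hk) ∣[(k : ℤ)] A =
      χ (((A : Matrix (Fin 2) (Fin 2) ℤ) 1 1 : ℤ) : ZMod N) • ⇑(eisNorm χ hk) := by
  have h1 : (⇑(eisNorm χ hk) : ℍ → ℂ) = (eisConst k)⁻¹ • eisChi χ (k : ℤ) := rfl
  rw [h1, ModularForm.SL_smul_slash, eisChi_slash χ (k : ℤ) hA, smul_comm]

end Fermat.Agent.S48.A.Conj.Eis3.QExp
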